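/-
ALPHA (helper3): **reduction of Riemann–Roch spaces** in the good-reduction setting `T3aGood` of
T3-A (helper6) / T1-B (helper9).

`d : TbBase K F k Fb` (Gauss ring `d.Ov ⊆ F`, reduction `d.res : d.Ov → Fb`), `hg : T3aGood d ℓ x`,
`r = t3aR hg : Place K F → Place k Fb` the reduction of places, `red D = mapDomain r D`.

* `alpr_genus_eq`        : `genus F = genus F̄`;
* `alpr_red_divOf`       : `red (div f) = div (res f)` for a Gauss unit `f` (conservation law);
* `alpr_resBall_le`      : `res (L(D) ∩ 𝒪) ⊆ L̄(red D)`;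
* `alpr_resBall_eq`      : equality for `deg D ≥ 2g - 1`;
* `alpr_exists_lift`     : every `t ∈ L̄(red D)` lifts to `L(D) ∩ 𝒪`;
* `alpr_exists_avoiding` : **moving lemma**: `deg D ≥ 2g`, `S` a finite set of places of `F̄` ⇒ some
  Gauss unit `s ∈ L(D)` such that the effective divisor `D + div s` has no point reducing into `S`.
-/
import Mathlib
import Fermat.Agent.Lib.T3.Red.Pic
import Fermat.Agent.Lib.T1.Core.GenusLe
import Fermat.Agent.Lib.Alpha.KM.Flip

set_option autoImplicit false
set_option linter.unusedSectionVars false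
set_option linter.style.haveILetI false

namespace Fermat.Agent.Alpha

open AlgebraicCurve IntermediateField Fermat.Agent.Curve Fermat.Agent.CurveP
  Fermat.Agent.Curve.PlaceAux Fermat.Agent.T1 Fermat.Agent.T3 RRAux

variable {K F k Fb : Type*} [Field K] [Field F] [Algebra K F] [Field k] [Field Fb] [Algebra k Fb]
variable [IsAlgClosed K] [IsAlgClosed k]
variable {d : TbBase K F k Fb} {ℓ : ℕ} {x : F} (hg : T3aGood d ℓ x)

include hg in
/-- the genus is preserved under good reduction. -/
theorem alpr_genus_eq : genusR K F = genusR k Fb := by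
  haveI := hg.sep
  haveI := hg.sepb
  exact le_antisymm hg.genus
    (tb_genus_le d hg.gen hg.hxO hg.hxiO hg.genb hg.deg hg.int1 hg.int2)

/-- reduction of divisors. -/
noncomputable def alprRed : Divisor K F →+ Divisor k Fb :=
  Finsupp.mapDomain.addMonoidHom (t3aR hg)

theorem alprRed_apply (D : Divisor K F) : alprRed hg D = Finsupp.mapDomain (t3aR hg) D := rfl

theorem alprRed_single (P : Place K F) (n : ℤ) :
    alprRed hg (Finsupp.single P n) = Finsupp.single (t3aR hg P) n := by
  rw [alprRed_apply, Finsupp.mapDomain_single]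

theorem alpr_degree_red (D : Divisor K F) :
    Divisor.degree (alprRed hg D) = Divisor.degree D :=
  t3a_degree_mapDomain hg.gen hg.genb' (t3aR hg) D

theorem alpr_red_nonneg {D : Divisor K F} (h : 0 ≤ D) : 0 ≤ alprRed hg D :=
  t3a_mapDomain_nonneg (t3aR hg) h

theorem alpr_red_mono {D D' : Divisor K F} (h : D ≤ D') : alprRed hg D ≤ alprRed hg D' :=
  t3a_mapDomain_mono (t3aR hg) h

/-- **conservation law** in divisor form. -/
theorem alpr_red_divOf {f : F} (hf : f ∈ d.Ov) (hres : d.res ⟨f, hf⟩ ≠ 0) :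
    haveI := hg.sep
    haveI := hg.sepb'
    alprRed hg (divOf hg.gen f) = divOf hg.genb' (d.res ⟨f, hf⟩) := by
  haveI := hg.sep
  haveI := hg.sepb'
  have hf0 : f ≠ 0 := t3a_ne_zero_of_res_ne_zero d hf hres
  ext Q
  rw [divOf_apply hg.genb' hres, alprRed_apply]
  exact t3a_conservation hg hf hres _ (fun P => divOf_apply hg.gen hf0 P) Q

/-- if `E ≥ 0` and `red E` vanishes at `Q` then `E` vanishes at every point reducing to `Q`. -/
theorem alpr_eq_zero_of_red_eq_zero {E : Divisor K F} (hE : 0 ≤ E) {P : Place K F}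
    (h : alprRed hg E (t3aR hg P) = 0) : E P = 0 := by
  classical
  rw [alprRed_apply, t3a_mapDomain_apply] at h
  have hnn : ∀ P' ∈ E.support, 0 ≤ (if t3aR hg P' = t3aR hg P then E P' else 0) := by
    intro P' _
    split_ifs
    · exact hE P'
    · exact le_rfl
  by_cases hP : P ∈ E.support
  · have h1 := (Finset.sum_eq_zero_iff_of_nonneg hnn).mp h P hP
    rwa [if_pos rfl] at h1
  · exact Finsupp.notMem_support_iff.mp hP

/-- `res (L(D) ∩ 𝒪) ⊆ L̄(red D)`. -/
theorem alpr_resBall_le (D : Divisor K F) :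
    d.resBall (riemannRochSpace D) ≤ riemannRochSpace (alprRed hg D) := by
  haveI := hg.sep
  haveI := hg.sepb'
  rintro _ ⟨s, hs, rfl⟩
  rw [mem_riemannRochSpace_iff]
  intro Q
  by_cases hres : d.res ⟨s, hs.2⟩ = 0
  · exact Or.inl hres
  right
  have hs0 : s ≠ 0 := t3a_ne_zero_of_res_ne_zero d hs.2 hres
  have h1 : 0 ≤ alprRed hg (D + divOf hg.gen s) :=
    alpr_red_nonneg hg (add_divOf_nonneg hg.gen hs.1 hs0)
  have h2 := h1 Q
  rw [map_add, alpr_red_divOf hg hs.2 hres, Finsupp.zero_apply, Finsupp.add_apply,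
    divOf_apply hg.genb' hres] at h2
  omega

/-- **reduction of Riemann–Roch spaces**: `res (L(D) ∩ 𝒪) = L̄(red D)` for `deg D ≥ 2g - 1`. -/
theorem alpr_resBall_eq {D : Divisor K F}
    (hD : 2 * (genusR K F : ℤ) - 1 ≤ Divisor.degree D) :
    d.resBall (riemannRochSpace D) = riemannRochSpace (alprRed hg D) := by
  haveI := hg.sep
  haveI := hg.sepb'
  haveI : FiniteDimensional K ↥(riemannRochSpace D) := finiteDimensional_riemannRochSpace hg.gen D
  haveI : FiniteDimensional k ↥(riemannRochSpace (alprRed hg D)) :=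
    finiteDimensional_riemannRochSpace hg.genb' _
  refine d.resBall_eq_of_finrank_le _ _ (alpr_resBall_le hg D) ?_
  have hgen := alpr_genus_eq hg
  have h1 : (ell D : ℤ) = Divisor.degree D + 1 - genusR K F := alpk_ell_eq hg.gen hD
  have h2 : (ell (alprRed hg D) : ℤ) = Divisor.degree (alprRed hg D) + 1 - genusR k Fb :=
    alpk_ell_eq hg.genb' (by rw [alpr_degree_red, ← hgen]; exact hD)
  rw [alpr_degree_red, ← hgen] at h2
  have h3 : (ell (alprRed hg D) : ℤ) = ell D := by rw [h1, h2]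
  have h4 : ell (alprRed hg D) = ell D := by exact_mod_cast h3
  exact h4.le

/-- lifting sections: every `t ∈ L̄(red D)` is the reduction of some `s ∈ L(D) ∩ 𝒪`. -/
theorem alpr_exists_lift {D : Divisor K F}
    (hD : 2 * (genusR K F : ℤ) - 1 ≤ Divisor.degree D) {t : Fb}
    (ht : t ∈ riemannRochSpace (alprRed hg D)) :
    ∃ s, ∃ _ : s ∈ riemannRochSpace D, ∃ hO : s ∈ d.Ov, d.res ⟨s, hO⟩ = t := by
  rw [← alpr_resBall_eq hg hD] at ht
  obtain ⟨s, hs, rfl⟩ := ht
  exact ⟨s, hs.1, hs.2, rfl⟩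

/-- **the moving lemma**: for `deg D ≥ 2g` and a finite set `S` of places of the special fibre there
is a Gauss unit `s ∈ L(D)` such that the effective divisor `D + div s` has no point whose
reduction lies in `S`; moreover `red (D + div s) = red D + div (res s)`. -/
theorem alpr_exists_avoiding {D : Divisor K F}
    (hD : 2 * (genusR K F : ℤ) ≤ Divisor.degree D) {S : Set (Place k Fb)} (hS : S.Finite) :
    haveI := hg.sep
    haveI := hg.sepb'
    ∃ s, ∃ _ : s ∈ riemannRochSpace D, ∃ hO : s ∈ d.Ov, d.res ⟨s, hO⟩ ≠ 0 ∧ s ≠ 0 ∧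
      0 ≤ D + divOf hg.gen s ∧
      alprRed hg (D + divOf hg.gen s) = alprRed hg D + divOf hg.genb' (d.res ⟨s, hO⟩) ∧
      (∀ Q ∈ S, alprRed hg (D + divOf hg.gen s) Q = 0) ∧
      ∀ P : Place K F, t3aR hg P ∈ S → (D + divOf hg.gen s) P = 0 := by
  haveI := hg.sep
  haveI := hg.sepb'
  have hgen := alpr_genus_eq hg
  have hDb : 2 * (genusR k Fb : ℤ) ≤ Divisor.degree (alprRed hg D) := by
    rw [alpr_degree_red, ← hgen]; exact hD
  obtain ⟨t, ht, ht0, htS⟩ := alpk_exists_avoiding hg.genb' hDb hS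
  obtain ⟨s, hs, hO, hst⟩ := alpr_exists_lift hg (by omega) ht
  have hres : d.res ⟨s, hO⟩ ≠ 0 := by rw [hst]; exact ht0
  have hs0 : s ≠ 0 := t3a_ne_zero_of_res_ne_zero d hO hres
  have hnn : 0 ≤ D + divOf hg.gen s := add_divOf_nonneg hg.gen hs hs0
  have hred : alprRed hg (D + divOf hg.gen s) =
      alprRed hg D + divOf hg.genb' (d.res ⟨s, hO⟩) := by
    rw [map_add, alpr_red_divOf hg hO hres]
  have hQ : ∀ Q ∈ S, alprRed hg (D + divOf hg.gen s) Q = 0 := by
    intro Q hQ
    rw [hred, Finsupp.add_apply, divOf_apply hg.genb' hres, hst, htS Q hQ]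
    omega
  refine ⟨s, hs, hO, hres, hs0, hnn, hred, hQ, ?_⟩
  intro P hP
  exact alpr_eq_zero_of_red_eq_zero hg hnn (hQ _ hP)

end Fermat.Agent.Alpha
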