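/-
ALPHA-RED (helper9), part 1: reduction of Riemann–Roch spaces, complements to helper3's
`Lib/Alpha/Red/RR.lean` (which has `alpr_genus_eq`, `alprRed`, `alpr_red_divOf`, `alpr_resBall_le`,
`alpr_resBall_eq`, `alpr_exists_lift`, `alpr_exists_avoiding`).

Setting: the lattice layer `d : TbBase K F k Fb` of T1-B together with good reduction
`hg : T3aGood d ℓ x` (T3-A); `r := t3aR hg : Place K F → Place k Fb` is the reduction map of places
and `alprRed hg D = Finsupp.mapDomain r D` the reduction of divisors.

* `alpr_ell_le`        : semicontinuity `ℓ(D) ≤ ℓ̄(red D)`;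
* `alpr_resBall_eq_of_ell_le` : the unit ball of `L(D)` reduces ONTO `L̄(red D)` as soon as
  `ℓ̄(red D) ≤ ℓ(D)`;
* `alpr_ell_eq`, `alpr_ell_eq_of_le` : equality of dimensions;
* `alpr_red_principal`, `alpr_red_sub_principal` : reduction preserves linear equivalence;
* `alpr_red_surjective`: every place of the special fibre is the reduction of a place.
-/
import Fermat.Agent.Lib.Alpha.Red.RR

set_option autoImplicit false
set_option linter.style.haveILetI false
set_option linter.unusedSectionVars false

namespace Fermat.Agent.Alpha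

open AlgebraicCurve IntermediateField Fermat.Agent.Curve Fermat.Agent.Curve.PlaceAux
  Fermat.Agent.T1 Fermat.Agent.T3 IsDedekindDomain

variable {K F k Fb : Type*} [Field K] [Field F] [Algebra K F] [Field k] [Field Fb] [Algebra k Fb]
variable [IsAlgClosed K] [IsAlgClosed k]
variable {d : TbBase K F k Fb} {ℓ : ℕ} {x : F} (hg : T3aGood d ℓ x)

include hg

/-- `L(D)` is finite dimensional (generic fibre) -/
theorem alpr_finiteDimensional (D : Divisor K F) : FiniteDimensional K ↥(riemannRochSpace D) :=
  haveI := hg.sep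
  CurveP.finiteDimensional_riemannRochSpace hg.gen D

/-- `L̄(E)` is finite dimensional (special fibre) -/
theorem alpr_finiteDimensional_bar (E : Divisor k Fb) :
    FiniteDimensional k ↥(riemannRochSpace E) :=
  haveI := hg.sepb'
  CurveP.finiteDimensional_riemannRochSpace hg.genb' E

/-- reduction of divisors preserves principal divisors (wrapper) -/
theorem alpr_red_principal {D : Divisor K F} (hD : D ∈ Divisor.principal (K := K) (F := F)) :
    alprRed hg D ∈ Divisor.principal (K := k) (F := Fb) :=
  t3a_mapDomain_mem_principal hg hD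

/-- reduction of divisors preserves linear equivalence -/
theorem alpr_red_sub_principal {D D' : Divisor K F}
    (hD : D - D' ∈ Divisor.principal (K := K) (F := F)) :
    alprRed hg D - alprRed hg D' ∈ Divisor.principal (K := k) (F := Fb) := by
  rw [← map_sub]
  exact alpr_red_principal hg hD

/-- the reduction of the unit ball of `L(D)` is finite dimensional -/
theorem alpr_finiteDimensional_resBall (D : Divisor K F) :
    FiniteDimensional k ↥(d.resBall (riemannRochSpace D)) :=
  haveI := alpr_finiteDimensional_bar hg (alprRed hg D)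
  Submodule.finiteDimensional_of_le (alpr_resBall_le hg D)

/-- **semicontinuity**: `ℓ(D) ≤ ℓ̄(red D)` -/
theorem alpr_ell_le (D : Divisor K F) : CurveP.ell D ≤ CurveP.ell (alprRed hg D) := by
  haveI := alpr_finiteDimensional hg D
  haveI := alpr_finiteDimensional_bar hg (alprRed hg D)
  haveI := alpr_finiteDimensional_resBall hg D
  exact (d.finrank_le_finrank_resBall _).trans (Submodule.finrank_mono (alpr_resBall_le hg D))

/-- **the unit ball of `L(D)` reduces onto `L̄(red D)`** as soon as `ℓ̄(red D) ≤ ℓ(D)` -/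
theorem alpr_resBall_eq_of_ell_le (D : Divisor K F)
    (h : CurveP.ell (alprRed hg D) ≤ CurveP.ell D) :
    d.resBall (riemannRochSpace D) = riemannRochSpace (alprRed hg D) := by
  haveI := alpr_finiteDimensional hg D
  haveI := alpr_finiteDimensional_bar hg (alprRed hg D)
  exact d.resBall_eq_of_finrank_le _ _ (alpr_resBall_le hg D) h

/-- `ℓ̄(red D) = ℓ(D)` for `deg D ≥ 2g - 1` -/
theorem alpr_ell_eq (D : Divisor K F)
    (hD : 2 * (CurveP.genusR K F : ℤ) - 1 ≤ Divisor.degree D) :
    CurveP.ell (alprRed hg D) = CurveP.ell D := by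
  haveI := hg.sep
  haveI := hg.sepb'
  have h1 := CurveP.ell_eq_of_degree_gt hg.gen (E := D) (by omega)
  have h2 := CurveP.ell_eq_of_degree_gt hg.genb' (E := alprRed hg D)
    (by rw [alpr_degree_red hg, ← alpr_genus_eq hg]; omega)
  rw [alpr_degree_red hg, ← alpr_genus_eq hg] at h2
  have h3 : (CurveP.ell (alprRed hg D) : ℤ) = (CurveP.ell D : ℤ) := by
    rw [h1, h2]
  exact_mod_cast h3

/-- if `ℓ̄(red D) ≤ deg D + 1 - g` then `ℓ(D) = ℓ̄(red D) = deg D + 1 - g` (Riemann's inequality on the
generic fibre + semicontinuity) -/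
theorem alpr_ell_eq_of_le (D : Divisor K F)
    (h : (CurveP.ell (alprRed hg D) : ℤ) ≤ Divisor.degree D + 1 - CurveP.genusR K F) :
    (CurveP.ell D : ℤ) = Divisor.degree D + 1 - CurveP.genusR K F ∧
      CurveP.ell (alprRed hg D) = CurveP.ell D := by
  haveI := hg.sep
  have h1 := CurveP.le_ell hg.gen D
  have h2 : (CurveP.ell D : ℤ) ≤ (CurveP.ell (alprRed hg D) : ℤ) := by
    exact_mod_cast alpr_ell_le hg D
  refine ⟨by omega, ?_⟩
  have h3 : (CurveP.ell (alprRed hg D) : ℤ) = (CurveP.ell D : ℤ) := by omega
  exact_mod_cast h3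

/-- **every place of the special fibre is the reduction of a place of the generic fibre** -/
theorem alpr_red_surjective : Function.Surjective (t3aR hg) := by
  classical
  haveI := hg.sep
  intro Q
  obtain ⟨tb, htb⟩ : ∃ t : Fb, Q.ord t = 1 := by
    obtain ⟨π, hπ⟩ := IsDiscreteValuationRing.exists_irreducible Q.toValuationSubring
    exact ⟨π, Q.ord_coe_irreducible hπ⟩
  have htb0 : tb ≠ 0 := by
    rintro rfl
    rw [Q.ord_zero] at htb
    exact zero_ne_one htb
  obtain ⟨⟨t, ht⟩, hres⟩ := d.res_surj tb
  have hres0 : d.res ⟨t, ht⟩ ≠ 0 := by rw [hres]; exact htb0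
  have ht0 : t ≠ 0 := t3a_ne_zero_of_res_ne_zero d ht hres0
  have h1 := t3a_conservation hg ht hres0 (CurveP.divOf hg.gen t)
    (fun P => CurveP.divOf_apply hg.gen ht0 P) Q
  rw [hres, htb, t3a_mapDomain_apply] at h1
  by_contra hne
  rw [Finset.sum_eq_zero] at h1
  · exact zero_ne_one h1
  · intro P _
    rw [if_neg]
    intro hP
    exact hne ⟨P, hP⟩

end Fermat.Agent.Alpha
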