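/-
ALPHA-RED (helper9), part 2: orthonormal bases and decompositions of unit balls (pure lattice layer:
`d : TbBase K F k Fb`, no curve).

* `alprT2`, `alpr_linearIndependent`, `alpr_resBall_finite`, `alpr_finrank_resBall`: transport of the
  facts proved for `T2Base` (`Lib/T2/Core/Base.lean`) to `TbBase`;
* `alpr_ball_decomp`   : if `resBall U ≤ resBall U₁ + span (res c)` then every `f` of the unit ball of `U`
  is `w + ∑ a_i c_i` with `w` in the unit ball of `U₁` and `a_i ∈ A` (Nakayama);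
* `alpr_indep_mod`     : if the residues of the `c_i` are linearly independent modulo `resBall U₁` then the
  `c_i` are `K`-linearly independent modulo `U₁` (uniqueness of the decomposition);
* `alpr_res_coeff`     : the decomposition reduces to the decomposition of the residue;
* `alpr_basis`, `alpr_exists_basis`, `alpr_exists_lift_fam` : orthonormal bases.
-/
import Fermat.Agent.Lib.T1.Core.Lattice1
import Fermat.Agent.Lib.T2.Core.Base

set_option autoImplicit false
set_option linter.style.haveILetI false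
set_option linter.unusedSectionVars false

namespace Fermat.Agent.Alpha

open Fermat.Agent.T1

variable {K F k Fb : Type*} [Field K] [Field F] [Algebra K F] [Field k] [Field Fb] [Algebra k Fb]
variable (d : TbBase K F k Fb)

/-- forget that the residue ring is a field -/
def alprT2 : Fermat.Agent.T2.T2Base K F k Fb where
  A := d.A
  resA := d.resA
  resA_surj := d.resA_surj
  Ov := d.Ov
  res := d.res
  algebraMap_mem := d.algebraMap_mem
  res_algebraMap := d.res_algebraMap
  normalize := d.normalize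
  arch := d.arch
  cart := d.cart

theorem alpr_t2_ball (W : Submodule K F) : (alprT2 d).ball W = d.ball W := rfl

theorem alpr_t2_resBall (W : Submodule K F) : (alprT2 d).resBall W = d.resBall W := rfl

/-- Gauss functions with linearly independent residues are linearly independent -/
theorem alpr_linearIndependent {ι : Type*} [Fintype ι] (s : ι → F) (hs : ∀ i, s i ∈ d.Ov)
    (hli : LinearIndependent k (fun i => d.res ⟨s i, hs i⟩)) : LinearIndependent K s :=
  (alprT2 d).linearIndependent_of_res s hs hli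

/-- the reduction of the unit ball of a finite-dimensional space is finite-dimensional -/
theorem alpr_resBall_finite (W : Submodule K F) [FiniteDimensional K ↥W] :
    FiniteDimensional k ↥(d.resBall W) :=
  (alprT2 d).finiteDimensional_resBall W

/-- **(Cart), numerical form**: `dim_k (reduction of the unit ball of W) = dim_K W` -/
theorem alpr_finrank_resBall (W : Submodule K F) [FiniteDimensional K ↥W] :
    Module.finrank k ↥(d.resBall W) = Module.finrank K ↥W :=
  (alprT2 d).finrank_resBall W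

/-- the residue of an `A`-combination of Gauss functions -/
theorem alpr_res_sum {ι : Type*} [Fintype ι] (c : ι → F) (hc : ∀ i, c i ∈ d.Ov) (a : ι → ↥d.A) :
    ∃ h : ∑ i, ((a i : ↥d.A) : K) • c i ∈ d.Ov,
      d.res ⟨∑ i, ((a i : ↥d.A) : K) • c i, h⟩ = ∑ i, d.resA (a i) • d.res ⟨c i, hc i⟩ := by
  have hmem : ∀ i, ((a i : ↥d.A) : K) • c i ∈ d.Ov := fun i => d.smul_mem (a i) (hc i)
  refine ⟨d.Ov.sum_mem (fun i _ => hmem i), ?_⟩
  rw [d.res_sum' Finset.univ _ hmem]
  exact Finset.sum_congr rfl (fun i _ => d.res_smul' (a i) (hc i))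

/-- **decomposition of a unit ball** (Nakayama): if `resBall U ≤ resBall U₁ + span (res c)` then every
element of the unit ball of `U` is `w + ∑ a_i c_i` with `w` in the unit ball of `U₁`, `a_i ∈ A` -/
theorem alpr_ball_decomp (U U₁ : Submodule K F) [FiniteDimensional K ↥U] (h1 : U₁ ≤ U)
    {ι : Type*} [Fintype ι] (c : ι → F) (hc : ∀ i, c i ∈ d.ball U)
    (hsup : d.resBall U ≤
      d.resBall U₁ ⊔ Submodule.span k (Set.range fun i => d.res ⟨c i, (hc i).2⟩))
    {f : F} (hf : f ∈ d.ball U) :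
    ∃ a : ι → ↥d.A, f - ∑ i, ((a i : ↥d.A) : K) • c i ∈ d.ball U₁ := by
  classical
  set N : Submodule ↥d.A F := d.ball U₁ ⊔ Submodule.span ↥d.A (Set.range c) with hN
  have hNU : N ≤ d.ball U :=
    sup_le (d.ball_mono h1) (Submodule.span_le.2 (by rintro _ ⟨i, rfl⟩; exact hc i))
  have hsm : ∀ (a : ι → ↥d.A), ∑ i, ((a i : ↥d.A) : K) • c i ∈
      Submodule.span ↥d.A (Set.range c) := fun a =>
    Submodule.sum_mem _ (fun i _ =>
      Submodule.smul_mem _ (a i) (Submodule.subset_span ⟨i, rfl⟩))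
  have hball : d.ball U ≤ N := by
    refine d.ball_le_of_res U N hNU (fun s hs => ?_)
    have hsR : d.res ⟨s, hs.2⟩ ∈ d.resBall U := ⟨s, hs, rfl⟩
    obtain ⟨t₁, ⟨s₁, hs₁, rfl⟩, t₂, ht₂, hsum⟩ := Submodule.mem_sup.mp (hsup hsR)
    obtain ⟨γ, hγ⟩ := (Submodule.mem_span_range_iff_exists_fun k).mp ht₂
    choose a ha using fun i => d.resA_surj (γ i)
    obtain ⟨hmem, hres⟩ := alpr_res_sum d c (fun i => (hc i).2) a
    refine ⟨s₁ + ∑ i, ((a i : ↥d.A) : K) • c i, Submodule.add_mem_sup hs₁ (hsm a), ?_⟩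
    rw [d.res_add' hs₁.2 hmem, hres, ← hsum, ← hγ]
    congr 1
    exact Finset.sum_congr rfl (fun i _ => by rw [ha i])
  obtain ⟨w, hw, v, hv, hwv⟩ := Submodule.mem_sup.mp (hball hf)
  obtain ⟨a, ha⟩ := (Submodule.mem_span_range_iff_exists_fun ↥d.A).mp hv
  refine ⟨a, ?_⟩
  have h2 : ∑ i, ((a i : ↥d.A) : K) • c i = v := ha
  rw [h2, ← hwv, add_sub_cancel_right]
  exact hw

/-- **uniqueness of the decomposition**: if the residues of the `c_i` are linearly independent modulo
`resBall U₁`, then the `c_i` are `K`-linearly independent modulo `U₁` -/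
theorem alpr_indep_mod (U₁ : Submodule K F) {ι : Type*} [Fintype ι] (c : ι → F)
    (hc : ∀ i, c i ∈ d.Ov)
    (hdisj : ∀ γ : ι → k, ∑ i, γ i • d.res ⟨c i, hc i⟩ ∈ d.resBall U₁ → γ = 0)
    (a : ι → K) (ha : ∑ i, a i • c i ∈ U₁) : a = 0 := by
  classical
  by_contra hne
  obtain ⟨j, hj⟩ : ∃ j, a j ≠ 0 := by
    by_contra h
    exact hne (funext fun i => not_not.mp (not_exists.mp h i))
  obtain ⟨i₀, -, hi₀0, hall⟩ := (alprT2 d).exists_scale Finset.univ a ⟨j, Finset.mem_univ j, hj⟩
  set a' : ι → ↥d.A := fun i => ⟨a i / a i₀, hall i (Finset.mem_univ i)⟩ with ha'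
  obtain ⟨hmem, hres⟩ := alpr_res_sum d c hc a'
  have hsum : ∑ i, ((a' i : ↥d.A) : K) • c i = (a i₀)⁻¹ • ∑ i, a i • c i := by
    rw [Finset.smul_sum]
    refine Finset.sum_congr rfl (fun i _ => ?_)
    rw [smul_smul]
    congr 1
    show a i / a i₀ = (a i₀)⁻¹ * a i
    rw [div_eq_mul_inv, mul_comm]
  have hU : ∑ i, ((a' i : ↥d.A) : K) • c i ∈ d.ball U₁ :=
    ⟨by rw [hsum]; exact U₁.smul_mem _ ha, hmem⟩
  have h3 : ∑ i, d.resA (a' i) • d.res ⟨c i, hc i⟩ ∈ d.resBall U₁ := by
    rw [← hres]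
    exact ⟨_, hU, rfl⟩
  have h4 := congrFun (hdisj _ h3) i₀
  have h5 : a' i₀ = 1 := by
    apply Subtype.ext
    show a i₀ / a i₀ = 1
    exact div_self hi₀0
  rw [h5, map_one] at h4
  exact one_ne_zero h4

/-- the decomposition reduces to the decomposition of the residue -/
theorem alpr_res_coeff (U₁ : Submodule K F) {ι : Type*} [Fintype ι] (c : ι → F)
    (hc : ∀ i, c i ∈ d.Ov) {f : F} (hf : f ∈ d.Ov) (a : ι → ↥d.A)
    (h : f - ∑ i, ((a i : ↥d.A) : K) • c i ∈ U₁) :
    d.res ⟨f, hf⟩ - ∑ i, d.resA (a i) • d.res ⟨c i, hc i⟩ ∈ d.resBall U₁ := by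
  obtain ⟨hmem, hres⟩ := alpr_res_sum d c hc a
  rw [← hres, ← d.res_sub' hf hmem]
  exact ⟨_, ⟨h, d.Ov.sub_mem hf hmem⟩, rfl⟩

/-- **orthonormal bases**: a family of the unit ball of `U` whose residues are a basis of `resBall U`
is a `K`-basis of `U` and an `A`-basis of the unit ball -/
theorem alpr_basis (U : Submodule K F) [FiniteDimensional K ↥U] {ι : Type*} [Fintype ι]
    (b : ι → F) (hb : ∀ i, b i ∈ d.ball U)
    (hli : LinearIndependent k (fun i => d.res ⟨b i, (hb i).2⟩))
    (hspan : d.resBall U ≤ Submodule.span k (Set.range fun i => d.res ⟨b i, (hb i).2⟩)) :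
    LinearIndependent K b ∧ Submodule.span K (Set.range b) = U ∧
      ∀ f ∈ d.ball U, ∃ a : ι → ↥d.A, f = ∑ i, ((a i : ↥d.A) : K) • b i := by
  have hcoeff : ∀ f ∈ d.ball U, ∃ a : ι → ↥d.A, f = ∑ i, ((a i : ↥d.A) : K) • b i := by
    intro f hf
    have hsup : d.resBall U ≤ d.resBall (⊥ : Submodule K F) ⊔
        Submodule.span k (Set.range fun i => d.res ⟨b i, (hb i).2⟩) :=
      hspan.trans le_sup_right
    obtain ⟨a, ha⟩ := alpr_ball_decomp d U ⊥ bot_le b hb hsup hf
    exact ⟨a, sub_eq_zero.mp ((Submodule.mem_bot K).mp ha.1)⟩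
  refine ⟨alpr_linearIndependent d b (fun i => (hb i).2) hli, ?_, hcoeff⟩
  refine le_antisymm (Submodule.span_le.2 (by rintro _ ⟨i, rfl⟩; exact (hb i).1)) ?_
  intro f hf
  rcases eq_or_ne f 0 with rfl | hf0
  · exact zero_mem _
  obtain ⟨c, hc0, hcf, -⟩ := d.normalize f hf0
  obtain ⟨a, ha⟩ := hcoeff (c • f) ⟨U.smul_mem c hf, hcf⟩
  have h3 : f = c⁻¹ • (c • f) := by rw [smul_smul, inv_mul_cancel₀ hc0, one_smul]
  rw [h3, ha]
  exact Submodule.smul_mem _ _ (Submodule.sum_mem _ (fun i _ =>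
    Submodule.smul_mem _ _ (Submodule.subset_span ⟨i, rfl⟩)))

/-- uniqueness of the `A`-coordinates in an orthonormal basis -/
theorem alpr_basis_unique {ι : Type*} [Fintype ι] (b : ι → F) (hb : ∀ i, b i ∈ d.Ov)
    (hli : LinearIndependent k (fun i => d.res ⟨b i, hb i⟩)) (a a' : ι → K)
    (h : ∑ i, a i • b i = ∑ i, a' i • b i) : a = a' := by
  have hK := alpr_linearIndependent d b hb hli
  have h1 : ∑ i, (a i - a' i) • b i = 0 := by
    simp only [sub_smul, Finset.sum_sub_distrib, h, sub_self]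
  funext i
  exact sub_eq_zero.mp (Fintype.linearIndependent_iff.mp hK _ h1 i)

/-- lifting a family of the reduction of a unit ball -/
theorem alpr_exists_lift_fam (U : Submodule K F) {ι : Type*} (t : ι → Fb)
    (ht : ∀ i, t i ∈ d.resBall U) :
    ∃ b : ι → F, ∃ hb : ∀ i, b i ∈ d.ball U, ∀ i, d.res ⟨b i, (hb i).2⟩ = t i := by
  choose b hb hbt using ht
  exact ⟨b, hb, hbt⟩

/-- **existence of orthonormal bases** -/
theorem alpr_exists_basis (U : Submodule K F) [FiniteDimensional K ↥U] :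
    ∃ b : Fin (Module.finrank K ↥U) → F, ∃ hb : ∀ i, b i ∈ d.ball U,
      LinearIndependent k (fun i => d.res ⟨b i, (hb i).2⟩) ∧
      d.resBall U ≤ Submodule.span k (Set.range fun i => d.res ⟨b i, (hb i).2⟩) := by
  classical
  haveI := alpr_resBall_finite d U
  have hn := alpr_finrank_resBall d U
  let B : Module.Basis (Fin (Module.finrank K ↥U)) k ↥(d.resBall U) :=
    (Module.finBasis k ↥(d.resBall U)).reindex (finCongr hn)
  obtain ⟨b, hb, hbt⟩ := alpr_exists_lift_fam d U (fun i => ((B i : ↥(d.resBall U)) : Fb))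
    (fun i => (B i).2)
  refine ⟨b, hb, ?_, ?_⟩
  · have h1 : (fun i => d.res ⟨b i, (hb i).2⟩) = fun i => ((B i : ↥(d.resBall U)) : Fb) :=
      funext hbt
    rw [h1]
    exact B.linearIndependent.map' (d.resBall U).subtype (Submodule.ker_subtype _)
  · intro t ht
    have h2 := congrArg Subtype.val (B.sum_repr ⟨t, ht⟩)
    rw [Submodule.coe_sum] at h2
    rw [← show ((⟨t, ht⟩ : ↥(d.resBall U)) : Fb) = t from rfl, ← h2]
    refine Submodule.sum_mem _ (fun i _ => ?_)
    rw [Submodule.coe_smul]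
    refine Submodule.smul_mem _ _ (Submodule.subset_span ⟨i, ?_⟩)
    exact hbt i

end Fermat.Agent.Alpha
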