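/-
ALPHA (helper3): reduction of effective representatives `AlpkRep` (KM/Chain.lean) in the
good-reduction setting `T3aGood`.

* `alpr_rep_red`     : `AlpkRep E0 c D → AlpkRep (red E0) (t3aRed c) (red D)`;
* `alpr_rep_ell_eq_one` : if the reduction of a representative `D` (`deg D = g`) has `ℓ̄ = 1`
  then `ℓ(D) = 1`;
* `alpr_rep_red_unique` : under `ℓ̄(red D) = 1` the reduction of the representative of `c` is THE
  representative of `t3aRed c`.
-/
import Mathlib
import Fermat.Agent.Lib.Alpha.Red.RR
import Fermat.Agent.Lib.Alpha.KM.Chain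

set_option autoImplicit false
set_option linter.unusedSectionVars false
set_option linter.style.haveILetI false

namespace Fermat.Agent.Alpha

open AlgebraicCurve IntermediateField Fermat.Agent.Curve Fermat.Agent.CurveP
  Fermat.Agent.Curve.PlaceAux Fermat.Agent.T1 Fermat.Agent.T3 RRAux

variable {K F k Fb : Type*} [Field K] [Field F] [Algebra K F] [Field k] [Field Fb] [Algebra k Fb]
variable [IsAlgClosed K] [IsAlgClosed k]
variable {d : TbBase K F k Fb} {ℓ : ℕ} {x : F} (hg : T3aGood d ℓ x)

/-- the reduction of an effective representative of `c` is an effective representative of the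
reduced class. -/
theorem alpr_rep_red {E0 D : Divisor K F} {c : Pic0 K F} (h : AlpkRep E0 c D) :
    AlpkRep (alprRed hg E0) (t3aRed hg c) (alprRed hg D) := by
  obtain ⟨hnn, h0, hc⟩ := h
  have hmem : alprRed hg D - alprRed hg E0 ∈ Divisor.degZero (K := k) (F := Fb) := by
    rw [Divisor.mem_degZero, ← map_sub, alpr_degree_red]
    exact h0
  refine ⟨alpr_red_nonneg hg hnn, hmem, ?_⟩
  rw [← hc, t3aRed_mk]
  congr 1
  apply Subtype.ext
  rw [coe_t3aRedDiv0]
  change alprRed hg D - alprRed hg E0 = alprRed hg (D - E0)
  rw [map_sub]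

/-- semicontinuity for representatives: `ℓ̄(red D) = 1`, `D ≥ 0` ⇒ `ℓ(D) = 1`. -/
theorem alpr_ell_eq_one_of_red {D : Divisor K F} (hD : 0 ≤ D)
    (hred : ell (alprRed hg D) = 1) : ell D = 1 := by
  haveI := hg.sep
  haveI := hg.sepb'
  haveI : FiniteDimensional K ↥(riemannRochSpace D) := finiteDimensional_riemannRochSpace hg.gen D
  haveI : FiniteDimensional k ↥(riemannRochSpace (alprRed hg D)) :=
    finiteDimensional_riemannRochSpace hg.genb' _
  -- upper bound: semicontinuity
  have hle : ell D ≤ ell (alprRed hg D) := by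
    haveI : FiniteDimensional k ↥(d.resBall (riemannRochSpace D)) :=
      Submodule.finiteDimensional_of_le (alpr_resBall_le hg D)
    exact (d.finrank_le_finrank_resBall (riemannRochSpace D)).trans
      (Submodule.finrank_mono (alpr_resBall_le hg D))
  -- lower bound: `1 ∈ L(D)`
  have hone : (1 : F) ∈ riemannRochSpace D := by
    rw [mem_riemannRochSpace_iff]
    intro v
    right
    have := hD v
    rw [Finsupp.zero_apply] at this
    rw [v.ord_one]
    omega
  have hpos : 0 < ell D := by
    rw [ell, Module.finrank_pos_iff_exists_ne_zero]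
    exact ⟨⟨1, hone⟩, fun h => one_ne_zero (congrArg Subtype.val h)⟩
  omega

/-- under `ℓ̄(red D) = 1`, the reduction of a representative of `c` is the unique representative of
the reduced class. -/
theorem alpr_rep_red_unique {E0 D : Divisor K F} {c : Pic0 K F} (h : AlpkRep E0 c D)
    (hred : ell (alprRed hg D) = 1) {Db : Divisor k Fb}
    (hb : AlpkRep (alprRed hg E0) (t3aRed hg c) Db) : alprRed hg D = Db := by
  haveI := hg.sep
  haveI := hg.sepb'
  exact alpk_rep_unique hg.genb' (alpr_rep_red hg h) hb hred

end Fermat.Agent.Alpha
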